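/-
Project BAD, layer MODEL (architect helper98), node A8b (proof: helper220): density of `R ∩ E` in
`R` modulo `𝔪 (W)` at the points of the charts of `ι x₀`.
-/
import Fermat.Agent.BAD.Model.Inst
import Fermat.Agent.S36.BP.Loc.Basic
import Fermat.Agent.S36.BP.Build.ThroughAway
import Fermat.Agent.S36.BP.Build.UpDense
import Fermat.Agent.S36.BP.Build.ChartMap

set_option autoImplicit false

namespace Fermat.Agent.BAD.Model

open Fermat.Agent.S18 Fermat.Agent.S36.BP Fermat.Agent.S36.BP.Build IntermediateField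

variable {F : Type*} [Field F] {K₀ : Type*} [Field K₀] [Algebra K₀ F]
  {A₀ : ValuationSubring K₀} {q : ℕ} {R : Subring F}

section Main

variable {F₀ : Type*} [Field F₀] [Algebra K₀ F₀] {x₀ : F₀} {Ow : ValuationSubring F₀}

/-- one chart. -/
theorem dense_of_chart (ι : F₀ →ₐ[K₀] F) (hU : IsUnif Ow (q : F₀)) (z₀ : F₀)
    (h₀ : IsChart Ow (q : F₀) (chart A₀.toSubring z₀)) (W : ValuationSubring F)
    (hcomap : W.comap (ι : F₀ →+* F) = Ow)
    (hf : ∀ y ∈ W, ∃ y' : F₀, W.valuation (ι y' - y) < 1)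
    (E : Subfield F) (hE : ∀ f, ι f ∈ E) (z : F) (hz : ι z₀ = z)
    (𝔫 : Ideal (chart A₀.toSubring z)) [𝔫.IsMaximal]
    (hT : Through (locSub (chart A₀.toSubring z) 𝔫) W) :
    ∀ r ∈ locSub (chart A₀.toSubring z) 𝔫,
      ∃ r' ∈ locSub (chart A₀.toSubring z) 𝔫, r' ∈ E ∧ W.valuation (r' - r) < 1 := by
  subst hz
  have hle : ∀ b ∈ chart A₀.toSubring (ι z₀), b ∈ W := fun b hb => hT.le b (le_locSub hb)
  have hP : ∀ b : chart A₀.toSubring (ι z₀), W.valuation (b : F) < 1 → b ∈ 𝔫 := by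
    intro b hb
    by_contra hbn
    have h1 : (b : F)⁻¹ ∈ W := hT.le _ (inv_mem_locSub hbn)
    have h2 := (W.valuation_le_one_iff _).2 h1
    have hb0 : (b : F) ≠ 0 := coe_ne_zero_of_notMem hbn
    have hv0 : W.valuation (b : F) ≠ 0 := (Valuation.ne_zero_iff _).2 hb0
    rw [map_inv₀, inv_le_one₀ (zero_lt_iff.2 hv0)] at h2
    exact absurd hb (not_lt.2 h2)
  refine dense_loc hle hP ?_
  intro b hb
  obtain ⟨b₀, hb₀, hlt⟩ := dense_of_level0 (ι : F₀ →+* F) hU h₀ hcomap hf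
    (B := chart A₀.toSubring (ι z₀))
    (fun b hb => (mem_chart_map_iff ι A₀.toSubring z₀ b).1 hb) b hb
  refine ⟨ι b₀, map_mem_chart ι A₀.toSubring z₀ b₀ hb₀, hE b₀, ?_⟩
  rw [Valuation.map_sub_swap]
  exact hlt

/-- density of `R ∩ E` in `R` modulo `𝔪 (V c)` (`dense_of_level0`, `dense_loc`). -/
theorem dense_of (ι : F₀ →ₐ[K₀] F) (hU : IsUnif Ow (q : F₀))
    (h₁ : IsChart Ow (q : F₀) (chart A₀.toSubring x₀))
    (h₂ : IsChart Ow (q : F₀) (chart A₀.toSubring x₀⁻¹)) (W : ValuationSubring F)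
    (hcomap : W.comap (ι : F₀ →+* F) = Ow)
    (hf : ∀ y ∈ W, ∃ y' : F₀, W.valuation (ι y' - y) < 1)
    (E : Subfield F) (hE : ∀ f, ι f ∈ E)
    (hR : IsMPt A₀ q (ι x₀) R) (hT : Through R W) :
    ∀ r ∈ R, ∃ r' ∈ R, r' ∈ E ∧ W.valuation (r' - r) < 1 := by
  rcases hR with ⟨𝔫, h𝔫, -, rfl⟩ | ⟨𝔫, h𝔫, -, rfl⟩
  · exact dense_of_chart ι hU x₀ h₁ W hcomap hf E hE _ rfl 𝔫 hT
  · exact dense_of_chart ι hU x₀⁻¹ h₂ W hcomap hf E hE _ (map_inv₀ ι x₀) 𝔫 hT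

end Main

end Fermat.Agent.BAD.Model
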