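/-
Project BAD, layer MODEL (architect helper98), node A8a (proof helper21):
`Through` or `Away` at the points of the charts of `ι x₀`.
-/
import Fermat.Agent.BAD.Model.Inst
import Fermat.Agent.S36.BP.Build.ThroughAway
import Fermat.Agent.S36.BP.Build.UpDense
import Fermat.Agent.S36.BP.Build.UpLoc
import Fermat.Agent.S36.BP.Build.ChartMap

set_option autoImplicit false

namespace Fermat.Agent.BAD.Model

open Fermat.Agent.S18 Fermat.Agent.S36.BP Fermat.Agent.S36.BP.Build IntermediateField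

variable {F : Type*} [Field F] {K₀ : Type*} [Field K₀] [Algebra K₀ F]
  {A₀ : ValuationSubring K₀} {q : ℕ} {V : Fin 3 → ValuationSubring F} {R : Subring F}

variable {F₀ : Type*} [Field F₀] [Algebra K₀ F₀] {x₀ : F₀} {Ow : ValuationSubring F₀}

/-- `F` is algebraic over the image of `ι`. -/
theorem throughAway_isIntegralElem (ι : F₀ →ₐ[K₀] F) (hfin : FiniteDimensional K₀⟮ι x₀⟯ F)
    (z : F) : (ι : F₀ →+* F).IsIntegralElem z := by
  have hz : IsIntegral K₀⟮ι x₀⟯ z := Algebra.IsIntegral.isIntegral z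
  let _ : Algebra F₀ F := (ι : F₀ →+* F).toAlgebra
  have h2 : IsIntegral F₀ z := by
    refine isIntegral_of_forall_exists_algebraMap (fun r => ?_) hz
    have hr : (r : F) ∈ (K₀⟮x₀⟯).map ι := by
      rw [IntermediateField.adjoin_map, Set.image_singleton]
      exact r.2
    obtain ⟨a, -, ha⟩ := hr
    exact ⟨a, ha⟩
  exact h2

/-- one chart -/
theorem throughAway_chart (ι : F₀ →ₐ[K₀] F) (halg : ∀ z : F, (ι : F₀ →+* F).IsIntegralElem z)
    (hU : IsUnif Ow (q : F₀)) {z₀ : F₀}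
    (h₀ : IsChart Ow (q : F₀) (chart A₀.toSubring z₀))
    (hcomap : ∀ c, (V c).comap (ι : F₀ →+* F) = Ow)
    (hcomp : ∀ W : ValuationSubring F, W.comap (ι : F₀ →+* F) = Ow → ∃ c, W = V c)
    (hinj : Function.Injective V) (hunif : ∀ c, ∃ ϖ : F, IsUnif (V c) ϖ) (c : Fin 3)
    (hf : ∀ y ∈ V c, ∃ y' : F₀, (V c).valuation (ι y' - y) < 1)
    (𝔫 : Ideal (chart A₀.toSubring (ι z₀))) [𝔫.IsMaximal] :
    Through (locSub (chart A₀.toSubring (ι z₀)) 𝔫) (V c) ∨
      Away (locSub (chart A₀.toSubring (ι z₀)) 𝔫) (V c) := by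
  by_cases h : ∃ b : chart A₀.toSubring (ι z₀), (V c).valuation (b : F) < 1 ∧ b ∉ 𝔫
  · exact Or.inr (away_of_not_le h)
  · left
    have hP : ∀ b : chart A₀.toSubring (ι z₀), (V c).valuation (b : F) < 1 → b ∈ 𝔫 := by
      intro b hb
      by_contra hbn
      exact h ⟨b, hb, hbn⟩
    have hB : ∀ z : F, z ∈ chart A₀.toSubring (ι z₀) ↔
        IsIntegral ((chart A₀.toSubring z₀).map (ι : F₀ →+* F)) z :=
      mem_chart_map_iff ι A₀.toSubring z₀
    have hB₀ : ∀ b ∈ (chart A₀.toSubring z₀).map (ι : F₀ →+* F), b ∈ V c := by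
      rintro _ ⟨b₀, hb₀, rfl⟩
      exact (mem_iff_of_comap_eq (hcomap c) b₀).mp (h₀.le b₀ hb₀)
    have hle : ∀ b ∈ chart A₀.toSubring (ι z₀), b ∈ V c := fun b hb =>
      mem_of_isIntegral_of_le hB₀ ((hB b).1 hb)
    choose ϖ' hϖ' using hunif
    refine through_of_le hle hP
      (loc_of_level0 (ι : F₀ →+* F) V halg hU h₀ hcomp hcomap ϖ' hϖ' hinj hB c)
      (reg_of_level0 (ι : F₀ →+* F) hU h₀ (hcomap c) hf (fun b hb => (hB b).1 hb) ?_ 𝔫 hP)
    rintro _ ⟨b₀, hb₀, rfl⟩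
    exact map_mem_chart ι A₀.toSubring z₀ b₀ hb₀

/-- one chart, with a propositional equality for the coordinate -/
theorem throughAway_chart' (ι : F₀ →ₐ[K₀] F) (halg : ∀ z : F, (ι : F₀ →+* F).IsIntegralElem z)
    (hU : IsUnif Ow (q : F₀)) {z₀ : F₀}
    (h₀ : IsChart Ow (q : F₀) (chart A₀.toSubring z₀))
    (hcomap : ∀ c, (V c).comap (ι : F₀ →+* F) = Ow)
    (hcomp : ∀ W : ValuationSubring F, W.comap (ι : F₀ →+* F) = Ow → ∃ c, W = V c)
    (hinj : Function.Injective V) (hunif : ∀ c, ∃ ϖ : F, IsUnif (V c) ϖ) (c : Fin 3)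
    (hf : ∀ y ∈ V c, ∃ y' : F₀, (V c).valuation (ι y' - y) < 1) {z : F} (hz : z = ι z₀)
    (𝔫 : Ideal (chart A₀.toSubring z)) [𝔫.IsMaximal] :
    Through (locSub (chart A₀.toSubring z) 𝔫) (V c) ∨
      Away (locSub (chart A₀.toSubring z) 𝔫) (V c) := by
  subst hz
  exact throughAway_chart ι halg hU h₀ hcomap hcomp hinj hunif c hf 𝔫

/-- one embedding `ι` (`= ιa` or `ιb`), one component `W` with `f (W / Ow) = 1`:
`Through` or `Away` at the points of the charts of `ι x₀`. -/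
theorem through_or_away_of (ι : F₀ →ₐ[K₀] F) (hfin : FiniteDimensional K₀⟮ι x₀⟯ F)
    (hU : IsUnif Ow (q : F₀))
    (h₁ : IsChart Ow (q : F₀) (chart A₀.toSubring x₀))
    (h₂ : IsChart Ow (q : F₀) (chart A₀.toSubring x₀⁻¹))
    (hcomap : ∀ c, (V c).comap (ι : F₀ →+* F) = Ow)
    (hcomp : ∀ W : ValuationSubring F, W.comap (ι : F₀ →+* F) = Ow → ∃ c, W = V c)
    (hinj : Function.Injective V) (hunif : ∀ c, ∃ ϖ : F, IsUnif (V c) ϖ) (c : Fin 3)
    (hf : ∀ y ∈ V c, ∃ y' : F₀, (V c).valuation (ι y' - y) < 1)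
    (hR : IsMPt A₀ q (ι x₀) R) : Through R (V c) ∨ Away R (V c) := by
  have halg := throughAway_isIntegralElem ι hfin
  rcases hR with hR | hR
  · obtain ⟨𝔫, h𝔫, -, rfl⟩ := hR
    exact throughAway_chart ι halg hU h₁ hcomap hcomp hinj hunif c hf 𝔫
  · obtain ⟨𝔫, h𝔫, -, rfl⟩ := hR
    exact throughAway_chart' ι halg hU h₂ hcomap hcomp hinj hunif c hf (map_inv₀ ι x₀).symm 𝔫

end Fermat.Agent.BAD.Model
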