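/-
Project BAD, layer MODEL (architect helper98), node A8d: the first fields of the abstract model
from the modular input `InstData`.   Proofs: helper82.
-/
import Fermat.Agent.BAD.Model.Inst
import Fermat.Agent.BAD.Model.PreLoc
import Fermat.Agent.BAD.Model.Change
import Fermat.Agent.BAD.Model.Main.ThroughAway
import Fermat.Agent.S36.BP.Build.LocalCrit
import Fermat.Agent.S36.BP.Build.UpQep
import Fermat.Agent.S36.BP.Build.UpDense
import Fermat.Agent.S36.BP.Build.ChartMap

set_option autoImplicit false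

namespace Fermat.Agent.BAD.Model

open Fermat.Agent.S18 Fermat.Agent.S36.BP Fermat.Agent.S36.BP.Build IntermediateField

variable {F : Type*} [Field F] {K₀ : Type*} [Field K₀] [Algebra K₀ F]
  {A₀ : ValuationSubring K₀} {q : ℕ} {V : Fin 3 → ValuationSubring F} {R : Subring F}

section Main

variable {F₀ : Type*} [Field F₀] [Algebra K₀ F₀] {ιa ιb : F₀ →ₐ[K₀] F} {x₀ j₀ : F₀}
  {Ow : ValuationSubring F₀} {ϖm : F} {Eα Eβ : Subfield F} {Nα Nβ : F →* F}

/-- the image of a transcendental element is transcendental -/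
theorem fields_transcendental_map (ι : F₀ →ₐ[K₀] F) (h : Transcendental K₀ x₀) :
    Transcendental K₀ (ι x₀) := fun halg =>
  h ((isAlgebraic_algHom_iff ι ι.toRingHom.injective).mp halg)

/-- `F` is algebraic over the image of `ι`. -/
theorem fields_isIntegralElem (ι : F₀ →ₐ[K₀] F) (hfin : FiniteDimensional K₀⟮ι x₀⟯ F) (z : F) :
    (ι : F₀ →+* F).IsIntegralElem z := by
  have hz : IsIntegral K₀⟮ι x₀⟯ z := Algebra.IsIntegral.isIntegral z
  have hle : K₀⟮ι x₀⟯ ≤ ι.fieldRange := by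
    rw [adjoin_simple_le_iff]
    exact ⟨x₀, rfl⟩
  let _ : Algebra F₀ F := (ι : F₀ →+* F).toAlgebra
  have : IsIntegral F₀ z := by
    refine isIntegral_of_forall_exists_algebraMap (fun r => ?_) hz
    obtain ⟨s, hs⟩ := hle r.2
    exact ⟨s, hs⟩
  exact this

/-- the chart upstairs is contained in every extension of `Ow`. -/
theorem fields_chart_le (ι : F₀ →ₐ[K₀] F) {z₀ : F₀} (h₀ : ∀ b ∈ chart A₀.toSubring z₀, b ∈ Ow)
    {W : ValuationSubring F} (hW : W.comap (ι : F₀ →+* F) = Ow) :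
    ∀ b ∈ chart A₀.toSubring (ι z₀), b ∈ W := by
  intro b hb
  rw [mem_chart_map_iff] at hb
  refine mem_of_isIntegral_of_le (fun r hr => ?_) hb
  obtain ⟨r₀, hr₀, rfl⟩ := hr
  exact (mem_iff_of_comap_eq hW r₀).1 (h₀ _ hr₀)

/-- the `q`-expansion principle for the chart of `ι z₀`. -/
theorem fields_qep_of (ι : F₀ →ₐ[K₀] F) (hfin : FiniteDimensional K₀⟮ι x₀⟯ F)
    (hU : IsUnif Ow (q : F₀)) {z₀ : F₀} (h₀ : IsChart Ow (q : F₀) (chart A₀.toSubring z₀))
    (hcomp : ∀ W : ValuationSubring F, W.comap (ι : F₀ →+* F) = Ow → ∃ c, W = V c) :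
    ∀ y : F, (q : F) * y ∈ chart A₀.toSubring (ι z₀) → (∀ c, y ∈ V c) →
      y ∈ chart A₀.toSubring (ι z₀) := by
  intro y hy hV
  refine qep_of_level0 (ι : F₀ →+* F) V (fields_isIntegralElem ι hfin) hU h₀ hcomp
    (mem_chart_map_iff ι A₀.toSubring z₀) y ?_ hV
  rwa [map_natCast]

variable (D : InstBase A₀ q ιa ιb x₀ j₀ Ow V ϖm Eα Eβ Nα Nβ)

include D in
theorem InstBase.fields_exists_unif (c : Fin 3) : ∃ ϖ : F, IsUnif (V c) ϖ := by
  fin_cases c
  · exact ⟨_, D.unif0⟩
  · exact ⟨_, D.unif1⟩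
  · exact ⟨_, D.unif2⟩

include D in
theorem InstBase.isMPt_b (hR : IsMPt A₀ q (ιa x₀) R) : IsMPt A₀ q (ιb x₀) R :=
  isMPt_change D.base (fields_transcendental_map ιa D.transc₀) D.finite
    (fields_transcendental_map ιb D.transc₀) D.finite_b D.sym_ab D.sym_ba hR

include D in
theorem InstBase.through_or_away (hR : IsMPt A₀ q (ιa x₀) R) (c : Fin 3) :
    Through R (V c) ∨ Away R (V c) := by
  fin_cases c
  · exact through_or_away_of ιa D.finite D.unifw D.chart₁ D.chart₂ D.comap_a D.complete D.inj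
      D.fields_exists_unif 0 D.dense0a hR
  · exact through_or_away_of ιa D.finite D.unifw D.chart₁ D.chart₂ D.comap_a D.complete D.inj
      D.fields_exists_unif 1 D.dense1a hR
  · exact through_or_away_of ιb D.finite_b D.unifw D.chart₁ D.chart₂ D.comap_b D.complete_b D.inj
      D.fields_exists_unif 2 D.dense2b (D.isMPt_b hR)

include D in
theorem InstBase.qep₁ : ∀ y : F, (q : F) * y ∈ chart A₀.toSubring (ιa x₀) → (∀ c, y ∈ V c) →
    y ∈ chart A₀.toSubring (ιa x₀) :=
  fields_qep_of ιa D.finite D.unifw D.chart₁ D.complete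

include D in
theorem InstBase.qep₂ : ∀ y : F, (q : F) * y ∈ chart A₀.toSubring (ιa x₀)⁻¹ → (∀ c, y ∈ V c) →
    y ∈ chart A₀.toSubring (ιa x₀)⁻¹ := by
  rw [← map_inv₀]
  exact fields_qep_of ιa D.finite D.unifw D.chart₂ D.complete

include D in
theorem InstBase.locQep (hR : IsMPt A₀ q (ιa x₀) R) : LocQep q V R := by
  have hta := D.through_or_away hR
  rcases hR with ⟨𝔫, h𝔫, -, rfl⟩ | ⟨𝔫, h𝔫, -, rfl⟩
  · exact qep_loc_of (fun c => fields_chart_le ιa D.chart₁.le (D.comap_a c)) D.fields_exists_unif D.qep₁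
      𝔫 hta
  · refine qep_loc_of (fun c => ?_) D.fields_exists_unif D.qep₂ 𝔫 hta
    rw [← map_inv₀]
    exact fields_chart_le ιa D.chart₂.le (D.comap_a c)

end Main

end Fermat.Agent.BAD.Model
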