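/-
Project BAD, layer MODEL, node A8c (helper111): the norm preserves the units of the local rings of the charts.
-/
import Fermat.Agent.BAD.Model.Inst
import Fermat.Agent.BAD.Model.NormUnit

set_option autoImplicit false

namespace Fermat.Agent.BAD.Model

open Fermat.Agent.S18 Fermat.Agent.S36.BP IntermediateField

variable {F : Type*} [Field F] {K₀ : Type*} [Field K₀] [Algebra K₀ F]
  {A₀ : ValuationSubring K₀} {q : ℕ} {V : Fin 3 → ValuationSubring F} {R : Subring F}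

theorem normUnitOf_le_locSub (B : Subring F) (𝔫 : Ideal B) [h : 𝔫.IsPrime] {b : F} (hb : b ∈ B) :
    b ∈ locSub B 𝔫 :=
  ⟨⟨b, hb⟩, 1, fun h1 => h.ne_top ((Ideal.eq_top_iff_one _).2 h1), by simp⟩

theorem normUnitOf_inv_mem_locSub (B : Subring F) (𝔫 : Ideal B) [𝔫.IsPrime] {b : B} (hb : b ∉ 𝔫) :
    (b : F)⁻¹ ∈ locSub B 𝔫 := by
  have hb0 : (b : F) ≠ 0 := by
    intro h0
    apply hb
    have : b = 0 := Subtype.ext h0
    rw [this]
    exact 𝔫.zero_mem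
  exact ⟨1, b, hb, by simp [hb0]⟩

/-- one chart -/
theorem normUnitOf_chart (hq : 0 < q) {ϖm : F} {E : Subfield F} {N : F →* F}
    {Va Vm Vb : ValuationSubring F} (H : Half q ϖm E N Va Vm Vb) (B : Subring F)
    (hint : ∀ b ∈ B, N b ∈ B) (𝔫 : Ideal B) [𝔫.IsMaximal] (hT : Through (locSub B 𝔫) Vb) :
    ∀ ε : F, RUnit (locSub B 𝔫) ε → RUnit (locSub B 𝔫) (N ε) := by
  refine norm_unit_of_cong (q := q) B Vb N hint ?_ 𝔫 ?_
  · intro b hb
    exact Half.cong_pow H hq (hT.le b (normUnitOf_le_locSub B 𝔫 hb))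
  · intro b hb
    by_contra hmem
    have h1 : (b : F)⁻¹ ∈ Vb := hT.le _ (normUnitOf_inv_mem_locSub B 𝔫 hmem)
    have h2 : Vb.valuation (b : F)⁻¹ ≤ 1 := (Vb.valuation_le_one_iff _).2 h1
    have hb0 : (b : F) ≠ 0 := by
      intro h0
      apply hmem
      have : b = 0 := Subtype.ext h0
      rw [this]
      exact 𝔫.zero_mem
    have h3 : Vb.valuation (b : F) * Vb.valuation (b : F)⁻¹ = 1 := by
      rw [← map_mul, mul_inv_cancel₀ hb0, map_one]
    have h4 : Vb.valuation (b : F) * Vb.valuation (b : F)⁻¹ < 1 :=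
      mul_lt_one_of_lt_of_le hb h2
    rw [h3] at h4
    exact lt_irrefl _ h4

section Main

variable {F₀ : Type*} [Field F₀] [Algebra K₀ F₀] {ιa ιb : F₀ →ₐ[K₀] F} {x₀ j₀ : F₀}
  {Ow : ValuationSubring F₀} {ϖm : F} {Eα Eβ : Subfield F} {Nα Nβ : F →* F}

/-- the norm preserves the units (A4). -/
theorem norm_unit_of (ι : F₀ →ₐ[K₀] F) (hq : 0 < q) {E : Subfield F} {N : F →* F}
    {Va Vm Vb : ValuationSubring F} (H : Half q ϖm E N Va Vm Vb)
    (hint : ∀ z : F₀, ∀ b ∈ chart A₀.toSubring (ι z), N b ∈ chart A₀.toSubring (ι z))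
    (hR : IsMPt A₀ q (ι x₀) R) (hT : Through R Vb) :
    ∀ ε : F, RUnit R ε → RUnit R (N ε) := by
  rcases hR with ⟨𝔫, h𝔫, -, rfl⟩ | ⟨𝔫, h𝔫, -, rfl⟩
  · exact normUnitOf_chart hq H _ (hint x₀) 𝔫 hT
  · have h := hint x₀⁻¹
    rw [map_inv₀] at h
    exact normUnitOf_chart hq H _ h 𝔫 hT

end Main

end Fermat.Agent.BAD.Model
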