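/-
Project BAD, layer MODEL (architect helper98), node A8e: the assemblies
`model_of_instBase : InstBase .. → (∀ R, IsMPt .. R → PtHyp .. R) → S36.BP.Model ..` and
`model_of_instData : InstData .. → S36.BP.Model ..`.
-/
import Fermat.Agent.BAD.Model.NC
import Fermat.Agent.BAD.Model.CuspOfData
import Fermat.Agent.BAD.Model.Change
import Fermat.Agent.BAD.Model.Main.Dense
import Fermat.Agent.BAD.Model.Main.NormUnitOf
import Fermat.Agent.BAD.Model.Main.Fields
import Fermat.Agent.S18.Chart.Const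
import Fermat.Agent.S18.Chart.Overlap
import Fermat.Agent.S36.BP.Rad
import Fermat.Agent.S36.BP.Loc.Basic

set_option autoImplicit false

namespace Fermat.Agent.BAD.Model

open Fermat.Agent.S18 Fermat.Agent.S36.BP Fermat.Agent.S36.BP.Build IntermediateField

variable {F : Type*} [Field F] {K₀ : Type*} [Field K₀] [Algebra K₀ F]
  {A₀ : ValuationSubring K₀} {q : ℕ} {V : Fin 3 → ValuationSubring F} {R : Subring F}

/-- A point containing `x` contains the chart of `x`. -/
private theorem Assembly.chart_le {x : F} (hR : IsPt A₀ R) (hx : x ∈ R) :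
    ∀ b ∈ chart A₀.toSubring x, b ∈ R := by
  intro b hb
  rw [mem_chart_iff_isIntegral] at hb
  have hp : ∀ r : polyRing A₀.toSubring x, (r : F) ∈ R := by
    rintro ⟨r, hr⟩
    rw [mem_polyRing_iff] at hr
    obtain ⟨p, hp, rfl⟩ := hr
    change Polynomial.aeval x p ∈ R
    rw [Polynomial.aeval_eq_sum_range]
    refine R.sum_mem fun i _ => ?_
    rw [Algebra.smul_def]
    exact R.mul_mem (hR.const_mem _ (hp i)) (R.pow_mem hx i)
  exact hR.intClosed b (isIntegral_of_forall_exists_algebraMap (fun r => ⟨⟨_, hp r⟩, rfl⟩) hb)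

/-- A closed point of one of the two charts of `x` contains `x` or `x⁻¹`. -/
private theorem Assembly.mem_or_inv_mem {x : F} (hR : IsMPt A₀ q x R) : x ∈ R ∨ x⁻¹ ∈ R := by
  rcases hR with ⟨𝔫, h𝔫, -, rfl⟩ | ⟨𝔫, h𝔫, -, rfl⟩
  · exact Or.inl (le_locSub (self_mem_chart _))
  · exact Or.inr (le_locSub (self_mem_chart _))

section Main

variable {F₀ : Type*} [Field F₀] [Algebra K₀ F₀] {ιa ιb : F₀ →ₐ[K₀] F} {x₀ j₀ : F₀}
  {Ow : ValuationSubring F₀} {ϖm : F} {Eα Eβ : Subfield F} {Nα Nβ : F →* F}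

section Base

variable (D : InstBase A₀ q ιa ιb x₀ j₀ Ow V ϖm Eα Eβ Nα Nβ)

include D in
private theorem Assembly.transc : Transcendental K₀ (ιa x₀) :=
  fun h => D.transc₀ ((isAlgebraic_algHom_iff ιa ιa.injective).1 h)

include D in
theorem InstBase.halfPtα (hR : IsMPt A₀ q (ιa x₀) R) (hT : ∀ c, Through R (V c)) :
    HalfPt Eα Nα (V 0) (V 1) R where
  dense_a := dense_of ιa D.unifw D.chart₁ D.chart₂ (V 0) (D.comap_a 0) D.dense0a Eα D.range_a hR
    (hT 0)
  dense_m := dense_of ιa D.unifw D.chart₁ D.chart₂ (V 1) (D.comap_a 1) D.dense1a Eα D.range_a hR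
    (hT 1)
  norm_unit := norm_unit_of ιa D.base.prime.pos D.halfα D.normα_int hR (hT 2)

include D in
theorem InstBase.halfPtβ (hR : IsMPt A₀ q (ιa x₀) R) (hT : ∀ c, Through R (V c)) :
    HalfPt Eβ Nβ (V 2) (V 1) R where
  dense_a := dense_of ιb D.unifw D.chart₁ D.chart₂ (V 2) (D.comap_b 2) D.dense2b Eβ D.range_b
    (D.isMPt_b hR) (hT 2)
  dense_m := dense_of ιb D.unifw D.chart₁ D.chart₂ (V 1) (D.comap_b 1) D.dense1b Eβ D.range_b
    (D.isMPt_b hR) (hT 1)
  norm_unit := norm_unit_of ιb D.base.prime.pos D.halfβ D.normβ_int (D.isMPt_b hR) (hT 0)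

include D in
/-- **The abstract model from the common part of the modular input and `PtHyp` at all closed
points.** -/
theorem model_of_instBase (hpt : ∀ R, IsMPt A₀ q (ιa x₀) R → PtHyp V Eα Eβ Nα Nβ R) :
    Model A₀ q (ιa x₀) V ϖm Eα Eβ Nα Nβ where
  base := D.base
  transc := Assembly.transc D
  finite := D.finite
  const_mem c a ha := by
    have h : algebraMap K₀ F₀ a ∈ (V c).comap (ιa : F₀ →+* F) := by
      rw [D.comap_a c]
      exact D.const₀ a ha
    rw [ValuationSubring.mem_comap] at h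
    simpa using h
  x_unit c := by
    obtain ⟨h0, h1, h2⟩ := val_eq_one_iff.1 D.x_unit₀
    rw [← D.comap_a c, ValuationSubring.mem_comap] at h1 h2
    refine val_eq_one_iff.2 ⟨(map_ne_zero ιa).2 h0, h1, ?_⟩
    simpa using h2
  inj := D.inj
  unif0 := D.unif0
  unif1 := D.unif1
  unif2 := D.unif2
  ram1 := D.ram1
  qep₁ := D.qep₁
  qep₂ := D.qep₂
  constα a := by
    have h := D.range_a (algebraMap K₀ F₀ a)
    rwa [AlgHom.commutes] at h
  constβ a := by
    have h := D.range_b (algebraMap K₀ F₀ a)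
    rwa [AlgHom.commutes] at h
  normα_const := D.normα_const
  normβ_const := D.normβ_const
  halfα := D.halfα
  halfβ := D.halfβ
  pts₁ 𝔫 h𝔫 hq := hpt _ (Or.inl ⟨𝔫, h𝔫, hq, rfl⟩)
  pts₂ 𝔫 h𝔫 hq := hpt _ (Or.inr ⟨𝔫, h𝔫, hq, rfl⟩)

end Base

variable (D : InstData A₀ q ιa ιb x₀ j₀ Ow V ϖm Eα Eβ Nα Nβ)

include D in
theorem InstData.ptHyp (hR : IsMPt A₀ q (ιa x₀) R) : PtHyp V Eα Eβ Nα Nβ R := by
  have hPt : IsPt A₀ R := IsMPt.isPt D.base (Assembly.transc D.toInstBase) D.finite hR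
  have hq0 : (q : F) ≠ 0 := by
    intro h
    apply D.unif0.inv_notMem
    rw [h, inv_zero]
    exact (V 0).zero_mem
  have hqR : (q : F) ∈ rad R := by
    have h1 : A₀.valuation (q : K₀) < 1 := by
      rw [← not_le]
      intro h
      apply D.base.unif.inv_notMem
      rw [← ValuationSubring.valuation_le_one_iff, map_inv₀]
      exact inv_le_one_of_one_le₀ h
    have h2 := hPt.const_rad _ h1
    rwa [map_natCast] at h2
  rcases D.dich R hPt (Assembly.mem_or_inv_mem hR) with hj | hj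
  · obtain ⟨T, X₁, Y₁, X₂, Y₂, hE, hT, hX₁, hY₁, hX₂, hY₂⟩ := D.elts
    have hle := Assembly.chart_le hPt hj
    exact ptHyp_of_nc D.base.prime hq0 hPt.add_rad (D.through_or_away hR) (D.locQep hR) hqR
      D.unif0 D.unif1 D.unif2 D.ram1 hE (hle _ hX₁) (hle _ hY₁) (hle _ hX₂) (hle _ hY₂) (hle _ hT)
      (D.thick R hR hj) (D.halfPtα hR) (D.halfPtβ hR)
  · obtain ⟨c, s', hC⟩ := D.cuspData
    exact ptHyp_of_cuspData D.base hPt (D.through_or_away hR) (D.locQep hR) hqR
      D.unif0 D.unif1 D.unif2 D.ram1 hC hj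

include D in
/-- **The abstract model from the modular input.** -/
theorem model_of_instData : Model A₀ q (ιa x₀) V ϖm Eα Eβ Nα Nβ :=
  model_of_instBase D.toInstBase fun _ hR => D.ptHyp hR

end Main

end Fermat.Agent.BAD.Model
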